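import Fermat.Agent.TWPrimes.Euler.Sub
import Fermat.Agent.TWPrimes.Dev.Target
import Fermat.Agent.PoitouTate.Coind.Target
import Fermat.Agent.PoitouTate.Field.Target
import Fermat.Agent.PoitouTate.Lift.Target
import Fermat.Agent.PoitouTate.LocalDual.Target

/-!
# The input of duality for dévissage
-/

set_option autoImplicit false

noncomputable section

namespace FLTAgent.TWPrimes

open FLTAgent.PoitouTate

theorem targetSha2 : TargetSha2 :=
  fun p _ hp2 _ hpS _ hV F _ _ _ _ _ _ _ _ _ _ P hρ hρ' h =>
    sha2_le_of_sha1_le targetField targetLift targetLocalDual targetCoind hp2 hpS hV F hρ hρ' P h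

theorem targetDev_all : TargetDev := targetDev targetSha2

end FLTAgent.TWPrimes
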