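import Fermat.Agent.TWPrimes.Euler.Induced
import Fermat.Agent.TWPrimes.Count.Pair

/-!
# Classes detected at elements, and lifting of invariant vectors
-/

set_option autoImplicit false
set_option linter.unusedSectionVars false
set_option linter.style.haveILetI false

noncomputable section

open scoped Pointwise Classical

namespace FLTAgent.TWPrimes

open FLTAgent.PoitouTate

local notation "LL" => AlgebraicClosure ℚ
local notation "GG" => (AlgebraicClosure ℚ ≃ₐ[ℚ] AlgebraicClosure ℚ)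

variable {p : ℕ} [Fact p.Prime] {B : Type} [AddCommGroup B] [Module (ZMod p) B]
  {τ : Representation (ZMod p) GG B} {H Pn N : Subgroup GG} [Fintype (GG ⧸ H)]
  {e : B →ₗ[ZMod p] B}

/-- A module induced from a line on which `Pn` is trivial detects its classes at elements. -/
theorem cycDetect_of_ind (he : IndE τ H e) (hPn : Pn ≤ H) (hp : ¬ p ∣ Pn.relIndex H)
    (hu : ∀ u ∈ Pn, τ u ∘ₗ e = e) : CycDetect τ N := by
  intro c hc _ hloc
  have hec : ∀ h ∈ H, ∀ b, e (τ h b) = τ h (e b) := fun h hh b =>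
    (LinearMap.congr_fun (he.comm h hh) b).symm
  have hz : ∀ u ∈ Pn, e (c u) = 0 := fun u huP => by
    obtain ⟨m, hm⟩ := hloc u
    rw [hm, map_sub, hec u (hPn huP), ← LinearMap.comp_apply, hu u huP, sub_self]
  set Pn' : Subgroup H := Pn.subgroupOf H
  have hcard : ¬ p ∣ Nat.card (H ⧸ Pn') := hp
  have hne : Nat.card (H ⧸ Pn') ≠ 0 := fun h => hcard (h.symm ▸ dvd_zero p)
  haveI : Finite (H ⧸ Pn') := Nat.finite_of_card_ne_zero hne
  haveI := Fintype.ofFinite (H ⧸ Pn')
  let φ : H → B := fun h => e (c h.1)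
  have hφ : ∀ (h : H) (u : H), u ∈ Pn' → φ (h * u) = φ h := fun h u huP => by
    show e (c ((h * u : H) : GG)) = e (c h.1)
    rw [Subgroup.coe_mul, hc, map_add, hec _ h.2, hz _ (Subgroup.mem_subgroupOf.1 huP), map_zero, add_zero]
  have hout : ∀ h : H, φ ((h : H ⧸ Pn').out) = φ h := fun h => by
    obtain ⟨u, hu'⟩ := QuotientGroup.mk_out_eq_mul Pn' h
    rw [hu', hφ _ _ u.2]
  set n : ZMod p := (Fintype.card (H ⧸ Pn') : ZMod p) with hn
  have hn0 : n ≠ 0 := by
    rw [hn, Ne, ZMod.natCast_eq_zero_iff, ← Nat.card_eq_fintype_card]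
    exact hcard
  set a₀ : B := ∑ y : H ⧸ Pn', φ y.out with ha₀
  have hkey : ∀ h : H, τ h.1 a₀ = a₀ - n • φ h := fun h => by
    have h1 : ∀ y : H ⧸ Pn', τ h.1 (φ y.out) = φ (h • y).out - φ h := fun y => by
      have h2 : ((h * y.out : H) : H ⧸ Pn') = h • y := by
        conv_rhs => rw [← QuotientGroup.out_eq' y]
        rfl
      rw [← h2, hout, eq_sub_iff_add_eq', ]
      show e (c h.1) + τ h.1 (e (c y.out.1)) = e (c ((h * y.out : H) : GG))
      rw [Subgroup.coe_mul, hc, map_add, hec _ h.2]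
    rw [ha₀, map_sum, Finset.sum_congr rfl fun y _ => h1 y, Finset.sum_sub_distrib,
      Finset.sum_const, Finset.card_univ, ← Nat.cast_smul_eq_nsmul (ZMod p)]
    congr 1
    exact Fintype.sum_equiv (MulAction.toPerm h) _ _ fun y => rfl
  set a : B := (-n⁻¹) • a₀ with ha
  have ha' : ∀ h ∈ H, τ h a - a = e (c h) := fun h hh => by
    have h1 := hkey ⟨h, hh⟩
    rw [ha, map_smul, ← smul_sub, show τ h a₀ = _ from h1, sub_sub_cancel_left, smul_neg, neg_smul,
      neg_neg, smul_smul, inv_mul_cancel₀ hn0, one_smul]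
  let T : GG → B := fun t => τ t a + τ t (e (c t⁻¹))
  have hT : ∀ t, ∀ h ∈ H, T (t * h) = T t := fun t h hh => by
    show τ (t * h) a + τ (t * h) (e (c (t * h)⁻¹)) = τ t a + τ t (e (c t⁻¹))
    rw [mul_inv_rev, hc, map_add, hec _ (inv_mem hh), ← ha' _ (inv_mem hh), rho_mul τ t h a,
      rho_mul τ t h, ← map_add, ← map_add]
    simp only [map_add, map_sub, ← rho_mul, mul_inv_cancel, rho_one]
    abel
  have hTout : ∀ g : GG, T ((g : GG ⧸ H).out) = T g := fun g => by
    obtain ⟨h, hh⟩ := QuotientGroup.mk_out_eq_mul H g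
    rw [hh, hT _ _ h.2]
  refine ⟨∑ x : GG ⧸ H, T x.out, ?_⟩
  funext g
  rw [d0_apply, MonoidHom.id_apply]
  have h1 : ∀ x : GG ⧸ H, τ g (T x.out) =
      T (g • x).out + τ (g • x).out (e (τ (g • x).out⁻¹ (c g))) := fun x => by
    have h2 : ((g * x.out : GG) : GG ⧸ H) = g • x := by
      conv_rhs => rw [← QuotientGroup.out_eq' x]
      rfl
    obtain ⟨h, hh⟩ := QuotientGroup.mk_out_eq_mul H (g * x.out)
    have hP : τ (g • x).out (e (τ (g • x).out⁻¹ (c g))) =
        τ (g * x.out) (e (τ (g * x.out)⁻¹ (c g))) := by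
      rw [← h2, hh, mul_inv_rev (g * x.out), rho_mul τ (g * x.out), rho_mul τ h.1⁻¹,
        hec _ (inv_mem h.2), ← rho_mul τ h.1, mul_inv_cancel, rho_one]
    rw [hP, ← h2, hTout]
    show τ g (τ x.out a + τ x.out (e (c x.out⁻¹))) = τ (g * x.out) a +
      τ (g * x.out) (e (c (g * x.out)⁻¹)) + τ (g * x.out) (e (τ (g * x.out)⁻¹ (c g)))
    rw [map_add, ← rho_mul, ← rho_mul, add_assoc]
    congr 1
    rw [← map_add, ← map_add, ← hc, mul_inv_rev, inv_mul_cancel_right]
  rw [map_sum, Finset.sum_congr rfl fun x _ => h1 x, Finset.sum_add_distrib]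
  have h3 : (∑ x : GG ⧸ H, T (g • x).out) = ∑ x : GG ⧸ H, T x.out :=
    Fintype.sum_equiv (MulAction.toPerm g) _ _ fun x => rfl
  have h4 : (∑ x : GG ⧸ H, τ (g • x).out (e (τ (g • x).out⁻¹ (c g)))) = c g := by
    have h := LinearMap.congr_fun he.sum (c g)
    rw [LinearMap.sum_apply] at h
    exact (Fintype.sum_equiv (MulAction.toPerm g) _
      (fun x : GG ⧸ H => τ x.out (e (τ x.out⁻¹ (c g)))) fun x => rfl).trans h
  rw [h3, h4, add_sub_cancel_left]

variable {A : Type} [AddCommGroup A] [Module (ZMod p) A] {α : Representation (ZMod p) GG A}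
  {π : B →ₗ[ZMod p] A}

/-- Averaging over a group of order prime to `p`. -/
theorem cycLift_of_coprime {S : Finset Nat.Primes} (F : SField p S) (hτ : F.Triv τ)
    (hp : ¬ p ∣ Nat.card F.Γ) (hπ : ∀ g b, π (τ g b) = α g (π b))
    (hsurj : Function.Surjective π) : CycLift τ α π := by
  intro a ha _
  haveI := Fintype.ofFinite F.Γ
  obtain ⟨b₀, hb₀⟩ := hsurj a
  have hn : (Fintype.card F.Γ : ZMod p) ≠ 0 := by
    rwa [Ne, ZMod.natCast_eq_zero_iff, ← Nat.card_eq_fintype_card]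
  have hout : ∀ (g : GG) (x : F.Γ), τ g (τ x.out b₀) = τ ((g : F.Γ) * x).out b₀ := fun g x => by
    have h : ((g * x.out : GG) : F.Γ) = (((g : F.Γ) * x).out : GG) := by
      rw [QuotientGroup.out_eq', QuotientGroup.mk_mul, QuotientGroup.out_eq']
    have h1 := hτ _ (QuotientGroup.eq.1 h)
    rw [← rho_mul]
    calc τ (g * x.out) b₀ = τ (g * x.out) (τ ((g * x.out)⁻¹ * ((g : F.Γ) * x).out) b₀) := by
          rw [h1, LinearMap.id_apply]
      _ = _ := by rw [← rho_mul, mul_inv_cancel_left]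
  refine ⟨(Fintype.card F.Γ : ZMod p)⁻¹ • ∑ x : F.Γ, τ x.out b₀, mem_inv.2 fun g _ => ?_, ?_⟩
  · rw [map_smul, map_sum, Finset.sum_congr rfl fun x _ => hout g x]
    congr 1
    exact Fintype.sum_equiv (Equiv.mulLeft (g : F.Γ)) _ _ fun x => rfl
  · rw [map_smul, map_sum, Finset.sum_congr rfl fun x _ => by
        rw [hπ, hb₀, mem_inv.1 ha _ (Subgroup.mem_top _)], Finset.sum_const, Finset.card_univ,
      ← Nat.cast_smul_eq_nsmul (ZMod p), smul_smul, inv_mul_cancel₀ hn, one_smul]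

end FLTAgent.TWPrimes
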