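import Fermat.Agent.TWPrimes.Euler.Sub

/-!
# Modules induced from a subgroup

Functions on the cosets with the twisted action, the submodules induced from stable submodules,
and the idempotent of the base point.
-/

set_option autoImplicit false
set_option linter.unusedSectionVars false
set_option linter.style.haveILetI false

noncomputable section

open scoped Pointwise Classical

namespace FLTAgent.TWPrimes

open FLTAgent.PoitouTate

local notation "LL" => AlgebraicClosure ℚ
local notation "GG" => (AlgebraicClosure ℚ ≃ₐ[ℚ] AlgebraicClosure ℚ)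

variable {p : ℕ} [Fact p.Prime] {A A' : Type} [AddCommGroup A] [Module (ZMod p) A] [AddCommGroup A']
  [Module (ZMod p) A'] (H : Subgroup GG) (ρ : Representation (ZMod p) GG A)
  {ρ' : Representation (ZMod p) GG A'}

/-- The twisted action on functions on the cosets. -/
def indR : Representation (ZMod p) GG (GG ⧸ H → A) where
  toFun g := LinearMap.pi fun z => ρ g ∘ₗ LinearMap.proj (g⁻¹ • z)
  map_one' := LinearMap.ext fun f => funext fun z => by
    show ρ 1 (f ((1 : GG)⁻¹ • z)) = f z
    rw [inv_one, one_smul, rho_one]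
  map_mul' g h := LinearMap.ext fun f => funext fun z => by
    show ρ (g * h) (f ((g * h)⁻¹ • z)) = ρ g (ρ h (f (h⁻¹ • g⁻¹ • z)))
    rw [mul_inv_rev, mul_smul, rho_mul]

theorem indR_apply (g : GG) (f : GG ⧸ H → A) (z : GG ⧸ H) :
    indR H ρ g f z = ρ g (f (g⁻¹ • z)) := rfl

/-- The base point. -/
def bp : GG ⧸ H := ((1 : GG) : GG ⧸ H)

theorem smul_bp (g : GG) : g • bp H = (g : GG ⧸ H) := by
  show ((g • (1 : GG) : GG) : GG ⧸ H) = _
  rw [smul_eq_mul, mul_one]

theorem smul_bp_eq_iff {g : GG} : g • bp H = bp H ↔ g ∈ H := by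
  rw [smul_bp, bp, QuotientGroup.eq, mul_one, inv_mem_iff]

theorem exists_smul_bp (z : GG ⧸ H) : ∃ g : GG, g • bp H = z :=
  ⟨z.out, by rw [smul_bp, QuotientGroup.out_eq']⟩

variable {H} {ρ}

theorem triv_indR {S : Finset Nat.Primes} {F : SField p S} (hN : F.N ≤ H) (h : F.Triv ρ) :
    F.Triv (indR H ρ) := fun g hg => LinearMap.ext fun f => funext fun z => by
  obtain ⟨x, rfl⟩ := exists_smul_bp H z
  rw [indR_apply, h g hg, LinearMap.id_apply, LinearMap.id_apply, ← mul_smul]
  congr 1
  have hx : x⁻¹ * g⁻¹ * x ∈ H := hN (by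
    simpa using (SField.instNormal F).conj_mem _ (inv_mem hg) x⁻¹)
  rw [show g⁻¹ * x = x * (x⁻¹ * g⁻¹ * x) by group, mul_smul, (smul_bp_eq_iff H).2 hx]

variable [Fintype (GG ⧸ H)]

/-- The pairing of the induced modules. -/
def indPair (P : DualPair ρ ρ') : DualPair (indR H ρ) (indR H ρ') where
  e := ∑ z : GG ⧸ H, P.e.compl₁₂ (LinearMap.proj z) (LinearMap.proj z)
  equivariant g a b := by
    simp only [LinearMap.sum_apply, LinearMap.compl₁₂_apply, LinearMap.proj_apply, Finset.mul_sum]
    refine Fintype.sum_equiv (MulAction.toPerm g⁻¹) _ _ fun z => ?_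
    rw [indR_apply, indR_apply, P.equivariant, MulAction.toPerm_apply]
  left a ha := funext fun z => P.left _ fun b => by
    have h := ha (Pi.single z b)
    simp only [LinearMap.sum_apply, LinearMap.compl₁₂_apply, LinearMap.proj_apply] at h
    rwa [Finset.sum_eq_single z (fun w _ hw => by rw [Pi.single_eq_of_ne hw, map_zero])
      (fun hz => absurd (Finset.mem_univ z) hz), Pi.single_eq_same] at h
  right b hb := funext fun z => P.right _ fun a => by
    have h := hb (Pi.single z a)
    simp only [LinearMap.sum_apply, LinearMap.compl₁₂_apply, LinearMap.proj_apply] at h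
    rwa [Finset.sum_eq_single z (fun w _ hw => by
        rw [Pi.single_eq_of_ne hw, map_zero, LinearMap.zero_apply])
      (fun hz => absurd (Finset.mem_univ z) hz), Pi.single_eq_same] at h

theorem indPair_apply (P : DualPair ρ ρ') (a : GG ⧸ H → A) (b : GG ⧸ H → A') :
    (indPair P).e a b = ∑ z, P.e (a z) (b z) := by
  simp [indPair]

/-! ### Induced submodules -/

variable (H ρ) in
/-- The functions with values in the translates of a submodule. -/
def fnSub (M : Submodule (ZMod p) A) : Submodule (ZMod p) (GG ⧸ H → A) :=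
  ⨅ g : GG, M.comap (LinearMap.proj (bp H) ∘ₗ indR H ρ g)

theorem mem_fnSub {M : Submodule (ZMod p) A} {f : GG ⧸ H → A} :
    f ∈ fnSub H ρ M ↔ ∀ g : GG, ρ g (f (g⁻¹ • bp H)) ∈ M := by
  simp [fnSub, indR_apply]

theorem fnSub_stab (M : Submodule (ZMod p) A) : Stab (indR H ρ) (fnSub H ρ M) := fun g f hf =>
  mem_fnSub.2 fun x => by
    rw [indR_apply, ← rho_mul, ← mul_smul, ← mul_inv_rev]
    exact mem_fnSub.1 hf (x * g)

theorem fnSub_mono {M M' : Submodule (ZMod p) A} (h : M ≤ M') :
    fnSub H ρ M ≤ fnSub H ρ M' := fun _ hf => mem_fnSub.2 fun g => h (mem_fnSub.1 hf g)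

theorem apply_bp_of_mem {M : Submodule (ZMod p) A} {f : GG ⧸ H → A} (hf : f ∈ fnSub H ρ M) :
    f (bp H) ∈ M := by
  have h := mem_fnSub.1 hf 1
  rwa [inv_one, one_smul, rho_one] at h

theorem single_mem_fnSub {M : Submodule (ZMod p) A} (hM : ∀ h ∈ H, ∀ a ∈ M, ρ h a ∈ M) {a : A}
    (ha : a ∈ M) : (Pi.single (bp H) a : GG ⧸ H → A) ∈ fnSub H ρ M := mem_fnSub.2 fun g => by
  by_cases hg : g⁻¹ • bp H = bp H
  · rw [hg, Pi.single_eq_same]
    exact hM g (inv_mem_iff.1 ((smul_bp_eq_iff H).1 hg)) a ha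
  · rw [Pi.single_eq_of_ne hg, map_zero]
    exact zero_mem _

theorem annM_fnSub (P : DualPair ρ ρ') {M : Submodule (ZMod p) A}
    (hM : ∀ h ∈ H, ∀ a ∈ M, ρ h a ∈ M) :
    annM (indPair (H := H) P) (fnSub H ρ M) = fnSub H ρ' (annM P M) := by
  ext b
  refine ⟨fun hb => mem_fnSub.2 fun g => mem_annM.2 fun m hm => ?_, fun hb => mem_annM.2 fun f hf => ?_⟩
  · have h := mem_annM.1 (annM_stab (indPair P) (fnSub_stab M) g b hb) _ (single_mem_fnSub hM hm)
    rwa [indPair_apply, Finset.sum_eq_single (bp H) (fun w _ hw => by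
        rw [Pi.single_eq_of_ne hw, map_zero, LinearMap.zero_apply])
      (fun hz => absurd (Finset.mem_univ _) hz), Pi.single_eq_same, indR_apply] at h
  · rw [indPair_apply]
    refine Finset.sum_eq_zero fun z _ => ?_
    obtain ⟨g, rfl⟩ := exists_smul_bp H z
    have h1 := mem_fnSub.1 hf g⁻¹
    have h2 := mem_annM.1 (mem_fnSub.1 hb g⁻¹) _ h1
    rw [inv_inv, P.equivariant] at h2
    exact (mul_eq_zero.1 h2).resolve_left (om_ne_zero _)

/-! ### The idempotent of the base point -/

variable (p) in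
/-- The restriction to the base point. -/
def e0 (A : Type) [AddCommGroup A] [Module (ZMod p) A] :
    (GG ⧸ H → A) →ₗ[ZMod p] GG ⧸ H → A :=
  LinearMap.single (ZMod p) (fun _ => A) (bp H) ∘ₗ LinearMap.proj (bp H)

theorem e0_apply (f : GG ⧸ H → A) : e0 p (H := H) A f = Pi.single (bp H) (f (bp H)) := rfl

/-- An idempotent inducing from `H`. -/
structure IndE {B : Type} [AddCommGroup B] [Module (ZMod p) B]
    (τ : Representation (ZMod p) GG B) (H : Subgroup GG) [Fintype (GG ⧸ H)]
    (e : B →ₗ[ZMod p] B) : Prop where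
  idem : e ∘ₗ e = e
  comm : ∀ h ∈ H, τ h ∘ₗ e = e ∘ₗ τ h
  sep : ∀ g, g ∉ H → e ∘ₗ τ g ∘ₗ e = 0
  sum : (∑ x : GG ⧸ H, τ x.out ∘ₗ e ∘ₗ τ x.out⁻¹) = LinearMap.id

variable (H ρ) in
theorem indE_e0 : IndE (indR H ρ) H (e0 p (H := H) A) where
  idem := LinearMap.ext fun f => by
    rw [LinearMap.comp_apply, e0_apply, e0_apply, Pi.single_eq_same]
  comm h hh := LinearMap.ext fun f => funext fun z => by
    rw [LinearMap.comp_apply, LinearMap.comp_apply, indR_apply, e0_apply, e0_apply, indR_apply]
    have hb : h⁻¹ • bp H = bp H := (smul_bp_eq_iff H).2 (inv_mem hh)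
    by_cases hz : z = bp H
    · rw [hz, hb, Pi.single_eq_same, Pi.single_eq_same]
    · have hz' : h⁻¹ • z ≠ bp H := fun h' => hz (smul_left_cancel h⁻¹ (h'.trans hb.symm))
      rw [Pi.single_eq_of_ne hz, Pi.single_eq_of_ne hz', map_zero]
  sep g hg := LinearMap.ext fun f => by
    rw [LinearMap.comp_apply, LinearMap.comp_apply, e0_apply, e0_apply, indR_apply,
      Pi.single_eq_of_ne (fun h => hg (inv_mem_iff.1 ((smul_bp_eq_iff H).1 h))), map_zero,
      Pi.single_zero, LinearMap.zero_apply]
  sum := LinearMap.ext fun f => funext fun z => by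
    rw [LinearMap.sum_apply, Finset.sum_apply]
    simp only [LinearMap.comp_apply, LinearMap.id_apply, e0_apply, indR_apply, inv_inv]
    have hx : ∀ x : GG ⧸ H, x.out • bp H = x := fun x => by rw [smul_bp, QuotientGroup.out_eq']
    rw [Finset.sum_eq_single z]
    · have hz : z.out⁻¹ • z = bp H := by rw [inv_smul_eq_iff]; exact (hx z).symm
      rw [hz, Pi.single_eq_same, ← rho_mul, mul_inv_cancel, rho_one, hx]
    · intro x _ hxz
      rw [Pi.single_eq_of_ne, map_zero]
      intro h
      rw [inv_smul_eq_iff, hx] at h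
      exact hxz h.symm
    · exact fun h => absurd (Finset.mem_univ z) h

variable {B : Type} [AddCommGroup B] [Module (ZMod p) B] {τ : Representation (ZMod p) GG B}
  {e : B →ₗ[ZMod p] B} {M : Submodule (ZMod p) B}

theorem IndE.sub (he : IndE τ H e) (hM : Stab τ M) (hm : ∀ m ∈ M, e m ∈ M) :
    IndE (subR hM) H (e.restrict hm) where
  idem := LinearMap.ext fun x => Subtype.ext (LinearMap.congr_fun he.idem x.1)
  comm h hh := LinearMap.ext fun x => Subtype.ext (LinearMap.congr_fun (he.comm h hh) x.1)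
  sep g hg := LinearMap.ext fun x => Subtype.ext (LinearMap.congr_fun (he.sep g hg) x.1)
  sum := LinearMap.ext fun x => Subtype.ext (by
    have h := LinearMap.congr_fun he.sum x.1
    rw [LinearMap.sum_apply] at h ⊢
    rw [Submodule.coe_sum]
    exact h)

theorem IndE.quot (he : IndE τ H e) (hM : Stab τ M) (hm : ∀ m ∈ M, e m ∈ M) :
    IndE (quotR hM) H (M.mapQ M e hm) where
  idem := Submodule.linearMap_qext _ (LinearMap.ext fun x =>
    congrArg Submodule.Quotient.mk (LinearMap.congr_fun he.idem x))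
  comm h hh := Submodule.linearMap_qext _ (LinearMap.ext fun x =>
    congrArg Submodule.Quotient.mk (LinearMap.congr_fun (he.comm h hh) x))
  sep g hg := Submodule.linearMap_qext _ (LinearMap.ext fun x =>
    congrArg Submodule.Quotient.mk (LinearMap.congr_fun (he.sep g hg) x))
  sum := Submodule.linearMap_qext _ (LinearMap.ext fun x => by
    have h := congrArg M.mkQ (LinearMap.congr_fun he.sum x)
    rw [LinearMap.sum_apply, map_sum] at h
    rw [LinearMap.comp_apply, LinearMap.sum_apply]
    exact h)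

end FLTAgent.TWPrimes
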