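import Fermat.Agent.TWPrimes.Count.Pair
import Mathlib.GroupTheory.Index

/-!
# A line with unipotent stabiliser, and the pieces of the adjoint representation: interface
-/

set_option autoImplicit false

noncomputable section

open scoped Pointwise

namespace FLTAgent.TWPrimes

open FLTAgent.PoitouTate

local notation "LL" => AlgebraicClosure ℚ
local notation "GG" => (AlgebraicClosure ℚ ≃ₐ[ℚ] AlgebraicClosure ℚ)

variable {p : ℕ} [Fact p.Prime] {k : Type} [Field k] [Algebra (ZMod p) k]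

/-- The nilpotent matrix with image and kernel the line of `v`. -/
def nilM (v : Fin 2 → k) : Matrix (Fin 2) (Fin 2) k := !![-(v 0 * v 1), v 0 * v 0; -(v 1 * v 1), v 1 * v 0]

theorem trace_nilM (v : Fin 2 → k) : Matrix.trace (nilM v) = 0 := by
  simp [nilM, Matrix.trace_fin_two]
  ring

/-- The nilpotent matrix among the trace zero ones. -/
def nilW (v : Fin 2 → k) : W k := ⟨nilM v, LinearMap.mem_ker.2 (trace_nilM v)⟩

/-- A line, its stabiliser, and the unipotent part of the stabiliser. -/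
structure Line (D : Datum p k) where
  H : Subgroup GG
  Pn : Subgroup GG
  finite : H.FiniteIndex
  ker_le : D.rb.ker ≤ Pn
  le : Pn ≤ H
  normal : ∀ h ∈ H, ∀ u ∈ Pn, h * u * h⁻¹ ∈ Pn
  not_dvd_relIndex : ¬ p ∣ Pn.relIndex H
  not_dvd_index : ¬ p ∣ H.index
  v : Fin 2 → k
  v_ne : v ≠ 0
  stab : ∀ h ∈ H, ∃ a : k, Matrix.mulVec (D.rb h : Matrix (Fin 2) (Fin 2) k) v = a • v
  unip : ∀ u ∈ Pn, ∃ c : k, (D.rb u : Matrix (Fin 2) (Fin 2) k) = 1 + c • nilM v
  /-- The stabiliser of another point has no element of order `p`. -/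
  sep : ∀ g : GG, g ∉ H → ∀ a ∈ H, g⁻¹ * a * g ∈ H → D.rb a ^ p = 1 → D.rb a = 1
  big : ¬ p ∣ D.rb.ker.index ∨ ∃ u ∈ Pn, D.rb u ≠ 1

/-- Lines exist. -/
def TargetLine : Prop :=
  ∀ (p : ℕ) [Fact p.Prime] (k : Type) [Field k] [Finite k] [Algebra (ZMod p) k] (D : Datum p k),
    Nonempty (Line D)

variable (p) in
/-- The multiples of the nilpotent matrix. -/
def low (v : Fin 2 → k) : Submodule (ZMod p) (W k) :=
  (k ∙ nilW v).restrictScalars (ZMod p)

variable (p) in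
/-- The trace zero matrices preserving the line. -/
def mid (v : Fin 2 → k) : Submodule (ZMod p) (W k) where
  carrier := {A | Matrix.trace (nilM v * A.1) = 0}
  zero_mem' := by simp
  add_mem' := fun {A B} ha hb => by
    simp only [Set.mem_ofPred_eq] at ha hb
    simp [mul_add, ha, hb]
  smul_mem' := fun r A ha => by
    simp only [Set.mem_ofPred_eq] at ha
    simp [ha]

/-- The facts on the three steps. -/
structure LineFacts [Finite k] {D : Datum p k} (l : Line D) : Prop where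
  low_le : low p l.v ≤ mid p l.v
  low_stable : ∀ (e : ℕ), ∀ h ∈ l.H, ∀ A ∈ low p l.v, ad D e h A ∈ low p l.v
  mid_stable : ∀ (e : ℕ), ∀ h ∈ l.H, ∀ A ∈ mid p l.v, ad D e h A ∈ mid p l.v
  om_one : ∀ u ∈ l.Pn, om p u = 1
  low_fixed : ∀ (e : ℕ), ∀ u ∈ l.Pn, ∀ A ∈ low p l.v, ad D e u A = A
  mid_fixed : ∀ (e : ℕ), ∀ u ∈ l.Pn, ∀ A ∈ mid p l.v, ad D e u A - A ∈ low p l.v
  top_fixed : ∀ (e : ℕ), ∀ u ∈ l.Pn, ∀ A, ad D e u A - A ∈ mid p l.v
  mid_orth : ∀ B, B ∈ mid p l.v ↔ ∀ A ∈ low p l.v, (adPair D).e B A = 0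
  low_orth : ∀ A, A ∈ low p l.v ↔ ∀ B ∈ mid p l.v, (adPair D).e B A = 0
  fixed_mem_mid : ∀ u ∈ l.Pn, D.rb u ≠ 1 → ∀ A, ad D 0 u A = A → A ∈ mid p l.v
  fixed_mem_low : ∀ u ∈ l.Pn, D.rb u ≠ 1 → ∀ A ∈ mid p l.v, ad D 0 u A = A → A ∈ low p l.v

/-- The facts hold for every line. -/
def TargetLineFacts : Prop :=
  ∀ (p : ℕ) [Fact p.Prime] (k : Type) [Field k] [Finite k] [Algebra (ZMod p) k] (D : Datum p k)
    (l : Line D), LineFacts l

end FLTAgent.TWPrimes
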