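import Fermat.Agent.TWPrimes.Euler.Induced

/-!
# The complement of the constants is projective

When the stabiliser of every other point inside `H` has order prime to `p`, the functions of total
zero are cut out by an operator of trace one over the group of the field.
-/

set_option autoImplicit false
set_option linter.unusedSectionVars false
set_option linter.style.haveILetI false

noncomputable section

open scoped Pointwise Classical

namespace FLTAgent.TWPrimes

open FLTAgent.PoitouTate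

local notation "LL" => AlgebraicClosure ℚ
local notation "GG" => (AlgebraicClosure ℚ ≃ₐ[ℚ] AlgebraicClosure ℚ)

variable {p : ℕ} [Fact p.Prime] {S : Finset Nat.Primes} {F : SField p S} {H : Subgroup GG}
  {A : Type} [AddCommGroup A] [Module (ZMod p) A] (ρ : Representation (ZMod p) GG A)

theorem smul_eq_of_mk (hN : F.N ≤ H) {a b : GG} (h : (a : F.Γ) = (b : F.Γ)) (w : GG ⧸ H) :
    a • w = b • w := by
  obtain ⟨g, rfl⟩ := exists_smul_bp H w
  have h1 : g⁻¹ * (a⁻¹ * b) * g ∈ H := hN (by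
    simpa using (SField.instNormal F).conj_mem _ (QuotientGroup.eq.1 h) g⁻¹)
  rw [← mul_smul, ← mul_smul, show b * g = a * g * (g⁻¹ * (a⁻¹ * b) * g) by group,
    mul_smul (a * g), (smul_bp_eq_iff H).2 h1]

theorem out_smul (hN : F.N ≤ H) (g : GG) (w : GG ⧸ H) : (g : F.Γ).out • w = g • w :=
  smul_eq_of_mk hN (QuotientGroup.out_eq' _) w

theorem out_mul_smul (hN : F.N ≤ H) (x y : F.Γ) (w : GG ⧸ H) :
    (x * y).out • w = x.out • y.out • w := by
  rw [← mul_smul]
  exact smul_eq_of_mk hN (by rw [QuotientGroup.out_eq', QuotientGroup.mk_mul, QuotientGroup.out_eq',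
    QuotientGroup.out_eq']) w

theorem out_one_smul (hN : F.N ≤ H) (w : GG ⧸ H) : (1 : F.Γ).out • w = w := by
  rw [← QuotientGroup.mk_one, out_smul hN, one_smul]

theorem out_inv_smul (hN : F.N ≤ H) (x : F.Γ) (w : GG ⧸ H) : x.out • x⁻¹.out • w = w := by
  rw [← out_mul_smul hN, mul_inv_cancel, out_one_smul hN]

theorem out_inv_smul' (hN : F.N ≤ H) (x : F.Γ) (w : GG ⧸ H) : x⁻¹.out • x.out • w = w := by
  rw [← out_mul_smul hN, inv_mul_cancel, out_one_smul hN]

variable [Fintype F.Γ]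

variable (F H) in
/-- The image of `H` in the group of the field. -/
def hbar : Finset F.Γ := Finset.univ.filter fun x => x.out • bp H = bp H

theorem mem_hbar {x : F.Γ} : x ∈ hbar F H ↔ x.out • bp H = bp H := by simp [hbar]

/-- Weights with sum one along the orbits of `H`. -/
theorem exists_weight (hN : F.N ≤ H)
    (hsep : ∀ g : GG, g ∉ H → ∀ a ∈ H, g⁻¹ * a * g ∈ H → a ^ p ∈ F.N → a ∈ F.N) :
    ∃ c : GG ⧸ H → ZMod p, ∀ w, w ≠ bp H → ∑ x ∈ hbar F H, c (x.out • w) = 1 := by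
  let R : Setoid (GG ⧸ H) := MulAction.orbitRel H (GG ⧸ H)
  let rep : GG ⧸ H → GG ⧸ H := fun w => (Quotient.mk R w).out
  let St : GG ⧸ H → Finset F.Γ := fun w => (hbar F H).filter fun x => x.out • w = w
  refine ⟨fun w => if w = rep w then ((St w).card : ZMod p)⁻¹ else 0, fun w hw => ?_⟩
  have hrep : ∀ x ∈ hbar F H, rep (x.out • w) = rep w := fun x hx => by
    refine congrArg Quotient.out (Quotient.sound (s := R) ?_)
    exact ⟨⟨x.out, (smul_bp_eq_iff H).1 (mem_hbar.1 hx)⟩, rfl⟩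
  obtain ⟨⟨h₀, hh₀⟩, hr⟩ : rep w ∈ MulAction.orbit H w :=
    Quotient.exact (s := R) (Quotient.out_eq (Quotient.mk R w))
  change h₀ • w = rep w at hr
  set r := rep w with hr'
  have hrb : r ≠ bp H := fun h => hw (smul_left_cancel h₀ (by
    rw [hr, h, (smul_bp_eq_iff H).2 hh₀]))
  have hterm : ∀ x ∈ hbar F H, (if x.out • w = rep (x.out • w) then
      ((St (x.out • w)).card : ZMod p)⁻¹ else 0) =
      if x.out • w = r then ((St r).card : ZMod p)⁻¹ else 0 := fun x hx => by
    rw [hrep x hx]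
    split_ifs with h
    · rw [h]
    · rfl
  rw [Finset.sum_congr rfl hterm, ← Finset.sum_filter, Finset.sum_const, nsmul_eq_mul]
  set y : F.Γ := (h₀ : F.Γ) with hy
  have hyb : y ∈ hbar F H := mem_hbar.2 (by rw [hy, out_smul hN, (smul_bp_eq_iff H).2 hh₀])
  have hyr : y.out • w = r := by rw [hy, out_smul hN, hr]
  have hmul : ∀ {a b : F.Γ}, a ∈ hbar F H → b ∈ hbar F H → a * b ∈ hbar F H := fun ha hb =>
    mem_hbar.2 (by rw [out_mul_smul hN, mem_hbar.1 hb, mem_hbar.1 ha])
  have hinv : ∀ {a : F.Γ}, a ∈ hbar F H → a⁻¹ ∈ hbar F H := fun ha =>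
    mem_hbar.2 (by conv_lhs => rw [← mem_hbar.1 ha, out_inv_smul' hN])
  have hcard : ((hbar F H).filter fun x => x.out • w = r).card = (St r).card := by
    refine Finset.card_bij' (fun x _ => x * y⁻¹) (fun x _ => x * y) ?_ ?_ ?_ ?_
    · intro x hx
      simp only [Finset.mem_filter, St] at hx ⊢
      refine ⟨hmul hx.1 (hinv hyb), ?_⟩
      rw [out_mul_smul hN, ← hyr, out_inv_smul' hN, hx.2, hyr]
    · intro x hx
      simp only [Finset.mem_filter, St] at hx ⊢
      exact ⟨hmul hx.1 hyb, by rw [out_mul_smul hN, hyr, hx.2]⟩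
    · exact fun x _ => inv_mul_cancel_right x y
    · exact fun x _ => mul_inv_cancel_right x y
  rw [hcard]
  refine mul_inv_cancel₀ fun h0 => ?_
  let K : Subgroup F.Γ :=
    { carrier := {x | x ∈ St r}
      one_mem' := Finset.mem_filter.2 ⟨mem_hbar.2 (out_one_smul hN _), out_one_smul hN _⟩
      mul_mem' := fun {a b} ha hb => by
        obtain ⟨ha1, ha2⟩ := Finset.mem_filter.1 ha
        obtain ⟨hb1, hb2⟩ := Finset.mem_filter.1 hb
        exact Finset.mem_filter.2 ⟨hmul ha1 hb1, by rw [out_mul_smul hN, hb2, ha2]⟩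
      inv_mem' := fun {a} ha => by
        obtain ⟨ha1, ha2⟩ := Finset.mem_filter.1 ha
        exact Finset.mem_filter.2 ⟨hinv ha1, by conv_lhs => rw [← ha2, out_inv_smul' hN]⟩ }
  have hK : Nat.card K = (St r).card := Nat.card_eq_finsetCard (St r)
  rw [← hK, ZMod.natCast_eq_zero_iff] at h0
  obtain ⟨⟨x, hx⟩, hxo⟩ := exists_prime_orderOf_dvd_card' p h0
  have hxp : x ^ p = 1 := by
    have h := pow_orderOf_eq_one (⟨x, hx⟩ : K)
    rw [hxo] at h
    exact congrArg Subtype.val h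
  obtain ⟨hx1, hx2⟩ := Finset.mem_filter.1 (hx : x ∈ St r)
  obtain ⟨g, hg⟩ := exists_smul_bp H r
  have hgH : g ∉ H := fun h => hrb (by rw [← hg, (smul_bp_eq_iff H).2 h])
  have h1 : g⁻¹ * x.out * g ∈ H := (smul_bp_eq_iff H).1 (by
    rw [mul_smul, mul_smul, hg, hx2, inv_smul_eq_iff, hg])
  have h2 : x.out ^ p ∈ F.N := (QuotientGroup.eq_one_iff _).1 (by
    rw [QuotientGroup.mk_pow, QuotientGroup.out_eq', hxp])
  have h3 := (QuotientGroup.eq_one_iff _).2
    (hsep g hgH _ ((smul_bp_eq_iff H).1 (mem_hbar.1 hx1)) h1 h2)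
  rw [QuotientGroup.out_eq'] at h3
  have h4 : orderOf (⟨x, hx⟩ : K) = 1 := orderOf_eq_one_iff.2 (Subtype.ext h3)
  exact (Fact.out : p.Prime).ne_one (hxo.symm.trans h4)

variable [Fintype (GG ⧸ H)]

/-- The operator with given weights. -/
def eW (c : GG ⧸ H → ZMod p) : (GG ⧸ H → A) →ₗ[ZMod p] GG ⧸ H → A :=
  LinearMap.single (ZMod p) (fun _ => A) (bp H) ∘ₗ
    ∑ w : GG ⧸ H, c w • ((LinearMap.proj (bp H) : (GG ⧸ H → A) →ₗ[ZMod p] A) - LinearMap.proj w)

theorem eW_apply (c : GG ⧸ H → ZMod p) (f : GG ⧸ H → A) :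
    eW (A := A) c f = Pi.single (bp H) (∑ w, c w • (f (bp H) - f w)) := by
  simp [eW]

/-- The trace of the operator. -/
theorem sum_eW (hN : F.N ≤ H) {c : GG ⧸ H → ZMod p}
    (hc : ∀ w, w ≠ bp H → ∑ x ∈ hbar F H, c (x.out • w) = 1) (f : GG ⧸ H → A) (z : GG ⧸ H) :
    ∑ x : F.Γ, indR H ρ x.out (eW c (indR H ρ x.out⁻¹ f)) z =
      (Fintype.card (GG ⧸ H) : ZMod p) • f z - ∑ u, f u := by
  obtain ⟨g, hg⟩ := exists_smul_bp H z
  have hterm : ∀ x : F.Γ, indR H ρ x.out (eW c (indR H ρ x.out⁻¹ f)) z =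
      if x.out • bp H = z then ∑ w, c w • (f z - f (x.out • w)) else 0 := fun x => by
    rw [indR_apply, eW_apply]
    split_ifs with h
    · rw [show x.out⁻¹ • z = bp H by rw [inv_smul_eq_iff, h], Pi.single_eq_same, map_sum]
      refine Finset.sum_congr rfl fun w _ => ?_
      rw [indR_apply, indR_apply, inv_inv, map_smul, map_sub, h, ← rho_mul, ← rho_mul,
        mul_inv_cancel, rho_one, rho_one]
    · rw [Pi.single_eq_of_ne (fun h' => h (inv_smul_eq_iff.1 h').symm), map_zero]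
  rw [Finset.sum_congr rfl fun x _ => hterm x, ← Finset.sum_filter]
  have hbij : (∑ x ∈ Finset.univ.filter (fun x : F.Γ => x.out • bp H = z),
      ∑ w, c w • (f z - f (x.out • w))) =
      ∑ x ∈ hbar F H, ∑ w, c (x⁻¹.out • w) • (f z - f (g • w)) := by
    refine Finset.sum_bij' (fun x _ => (g : F.Γ)⁻¹ * x) (fun x _ => (g : F.Γ) * x) ?_ ?_ ?_ ?_ ?_
    · intro x hx
      rw [Finset.mem_filter] at hx
      rw [mem_hbar, out_mul_smul hN, hx.2, ← hg, ← out_smul hN g, out_inv_smul' hN]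
    · intro x hx
      rw [Finset.mem_filter, out_mul_smul hN, mem_hbar.1 hx, out_smul hN, hg]
      exact ⟨Finset.mem_univ _, rfl⟩
    · exact fun x _ => mul_inv_cancel_left _ _
    · exact fun x _ => inv_mul_cancel_left _ _
    · intro x _
      set y : F.Γ := (g : F.Γ)⁻¹ * x with hy
      have e1 : ∀ w, x.out • w = g • y.out • w := fun w => by
        rw [← out_smul hN g, ← out_mul_smul hN, hy, mul_inv_cancel_left]
      refine Fintype.sum_equiv (MulAction.toPerm y.out) _ _ fun w => ?_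
      rw [MulAction.toPerm_apply, out_inv_smul' hN, e1]
  have hw : ∀ w, (∑ x ∈ hbar F H, c (x⁻¹.out • w) • (f z - f (g • w))) = f z - f (g • w) := by
    intro w
    rcases eq_or_ne w (bp H) with rfl | hwb
    · simp [hg]
    rw [← Finset.sum_smul, Finset.sum_bij' (fun x _ => x⁻¹) (fun x _ => x⁻¹)
      (t := hbar F H) (g := fun x => c (x.out • w)) ?_ ?_ (fun x _ => inv_inv x)
      (fun x _ => inv_inv x) (fun x _ => rfl), hc w hwb, one_smul]
    all_goals exact fun x hx => mem_hbar.2 (by conv_lhs => rw [← mem_hbar.1 hx, out_inv_smul' hN])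
  rw [hbij, Finset.sum_comm, Finset.sum_congr rfl fun w _ => hw w, Finset.sum_sub_distrib,
    Finset.sum_const, Finset.card_univ, ← Nat.cast_smul_eq_nsmul (ZMod p)]
  congr 1
  exact Fintype.sum_equiv (MulAction.toPerm g) _ _ fun w => rfl

end FLTAgent.TWPrimes
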