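import Fermat.Agent.TWPrimes.Interface
import Fermat.Agent.PoitouTate.Sha.Count

/-!
# Stable submodules, their duals, and dévissage along them

A stable submodule `M` of a module with a dual pairing: its dual is the quotient by the annihilator,
and the dual of the quotient is the annihilator.
-/

set_option autoImplicit false
set_option linter.unusedSectionVars false
set_option linter.style.haveILetI false

noncomputable section

open scoped Pointwise

namespace FLTAgent.TWPrimes

open FLTAgent.PoitouTate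

local notation "LL" => AlgebraicClosure ℚ
local notation "GG" => (AlgebraicClosure ℚ ≃ₐ[ℚ] AlgebraicClosure ℚ)

variable {p : ℕ} [Fact p.Prime] {A A' : Type} [AddCommGroup A] [Module (ZMod p) A] [AddCommGroup A']
  [Module (ZMod p) A'] {ρ : Representation (ZMod p) GG A} {ρ' : Representation (ZMod p) GG A'}

/-- A submodule stable under a representation. -/
def Stab (ρ : Representation (ZMod p) GG A) (M : Submodule (ZMod p) A) : Prop :=
  ∀ g, ∀ m ∈ M, ρ g m ∈ M

variable {M : Submodule (ZMod p) A}

/-- The representation on a stable submodule. -/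
def subR (hM : Stab ρ M) : Representation (ZMod p) GG M where
  toFun g := (ρ g).restrict (p := M) (q := M) (hM g)
  map_one' := LinearMap.ext fun x => Subtype.ext (rho_one ρ x.1)
  map_mul' g h := LinearMap.ext fun x => Subtype.ext (rho_mul ρ g h x.1)

theorem subR_coe (hM : Stab ρ M) (g : GG) (x : M) : ((subR hM g x : M) : A) = ρ g x := rfl

/-- The representation on the quotient by a stable submodule. -/
def quotR (hM : Stab ρ M) : Representation (ZMod p) GG (A ⧸ M) where
  toFun g := Submodule.mapQ _ _ (ρ g) (hM g)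
  map_one' := Submodule.linearMap_qext _ (LinearMap.ext fun x => by
    show Submodule.Quotient.mk (ρ 1 x) = Submodule.Quotient.mk x
    rw [rho_one])
  map_mul' g h := Submodule.linearMap_qext _ (LinearMap.ext fun x => by
    show Submodule.Quotient.mk (ρ (g * h) x) = Submodule.Quotient.mk (ρ g (ρ h x))
    rw [rho_mul])

theorem quotR_mk (hM : Stab ρ M) (g : GG) (x : A) :
    quotR hM g (Submodule.Quotient.mk x) = Submodule.Quotient.mk (ρ g x) := rfl

theorem triv_subR {S : Finset Nat.Primes} {F : SField p S} (hM : Stab ρ M) (h : F.Triv ρ) :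
    F.Triv (subR hM) := fun g hg => LinearMap.ext fun x => Subtype.ext (by
  rw [subR_coe, h g hg]; rfl)

theorem triv_quotR {S : Finset Nat.Primes} {F : SField p S} (hM : Stab ρ M) (h : F.Triv ρ) :
    F.Triv (quotR hM) := fun g hg => Submodule.linearMap_qext _ (LinearMap.ext fun x => by
  show Submodule.Quotient.mk (ρ g x) = Submodule.Quotient.mk x
  rw [h g hg]; rfl)

/-! ### The annihilator -/

/-- The annihilator of a submodule in the dual module. -/
def annM (P : DualPair ρ ρ') (M : Submodule (ZMod p) A) : Submodule (ZMod p) A' :=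
  ⨅ m ∈ M, LinearMap.ker (P.e m)

theorem mem_annM {P : DualPair ρ ρ'} {b : A'} : b ∈ annM P M ↔ ∀ m ∈ M, P.e m b = 0 := by
  simp [annM]

theorem annM_stab (P : DualPair ρ ρ') (hM : Stab ρ M) : Stab ρ' (annM P M) := fun g b hb =>
  mem_annM.2 fun m hm => by
    have h := P.equivariant g (ρ g⁻¹ m) b
    rw [← rho_mul, mul_inv_cancel, rho_one, mem_annM.1 hb _ (hM g⁻¹ m hm), mul_zero] at h
    exact h

/-- The biorthogonal of a submodule is itself. -/
theorem mem_of_annM [FiniteDimensional (ZMod p) A] [FiniteDimensional (ZMod p) A']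
    (P : DualPair ρ ρ') {a : A} (h : ∀ b ∈ annM P M, P.e a b = 0) : a ∈ M := by
  by_contra ha
  obtain ⟨φ, hφa, hφ⟩ := Submodule.exists_dual_map_eq_bot_of_notMem ha inferInstance
  obtain ⟨b, hb⟩ := P.swap.flip_surjective φ
  refine hφa ?_
  rw [← hb]
  refine h b (mem_annM.2 fun m hm => ?_)
  have h0 : φ m = 0 := (Submodule.eq_bot_iff _).1 hφ _ (Submodule.mem_map_of_mem hm)
  rw [← hb] at h0
  exact h0

/-- A submodule and the quotient of the dual by the annihilator. -/
def subQuot (P : DualPair ρ ρ') (hM : Stab ρ M) :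
    DualPair (subR hM) (quotR (annM_stab P hM)) where
  e := LinearMap.flip ((annM P M).liftQ (P.e ∘ₗ M.subtype).flip fun b hb =>
    LinearMap.mem_ker.2 (LinearMap.ext fun m => mem_annM.1 hb _ m.2))
  equivariant g a b := by
    obtain ⟨y, rfl⟩ := Submodule.Quotient.mk_surjective _ b
    exact P.equivariant g a.1 y
  left a ha := Subtype.ext (P.left a.1 fun b => ha (Submodule.Quotient.mk b))
  right b hb := by
    obtain ⟨y, rfl⟩ := Submodule.Quotient.mk_surjective _ b
    exact (Submodule.Quotient.mk_eq_zero _).2 (mem_annM.2 fun m hm => hb ⟨m, hm⟩)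

theorem subQuot_apply (P : DualPair ρ ρ') (hM : Stab ρ M) (a : M) (b : A') :
    (subQuot P hM).e a (Submodule.Quotient.mk b) = P.e a b := rfl

/-- A quotient and the annihilator. -/
def quotSub [FiniteDimensional (ZMod p) A] [FiniteDimensional (ZMod p) A']
    (P : DualPair ρ ρ') (hM : Stab ρ M) :
    DualPair (quotR hM) (subR (annM_stab P hM)) where
  e := M.liftQ (P.e.compl₂ (annM P M).subtype) fun m hm =>
    LinearMap.mem_ker.2 (LinearMap.ext fun b => mem_annM.1 b.2 m hm)
  equivariant g a b := by
    obtain ⟨x, rfl⟩ := Submodule.Quotient.mk_surjective _ a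
    exact P.equivariant g x b.1
  left a ha := by
    obtain ⟨x, rfl⟩ := Submodule.Quotient.mk_surjective _ a
    exact (Submodule.Quotient.mk_eq_zero _).2 (mem_of_annM P fun b hb => ha ⟨b, hb⟩)
  right b hb := Subtype.ext (P.right b.1 fun a => hb (Submodule.Quotient.mk a))

/-- Dévissage along a stable submodule. -/
theorem eulerGE_of_sub (hdev : TargetDev) (hp2 : p ≠ 2) {S : Finset Nat.Primes} (F : SField p S)
    [FiniteDimensional (ZMod p) A] [FiniteDimensional (ZMod p) A'] (P : DualPair ρ ρ')
    (hM : Stab ρ M) (hρ : F.Triv ρ) (hρ' : F.Triv ρ')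
    (hdet : CycDetect (quotR (annM_stab P hM)) F.N)
    (hlift : CycLift ρ' (quotR (annM_stab P hM)) (annM P M).mkQ)
    (h1 : EulerGE (subR hM) (quotR (annM_stab P hM)))
    (h2 : EulerGE (quotR hM) (subR (annM_stab P hM))) : EulerGE ρ ρ' :=
  hdev p hp2 S F M (A' ⧸ annM P M) A A' (A ⧸ M) (annM P M) (subR hM)
    (quotR (annM_stab P hM)) ρ ρ' (quotR hM) (subR (annM_stab P hM)) (subQuot P hM) P
    (quotSub P hM) M.subtype M.mkQ (annM P M).subtype (annM P M).mkQ (fun _ _ => rfl)
    (fun _ _ => rfl) (fun _ _ => rfl) (fun _ _ => rfl) Subtype.val_injective M.mkQ_surjective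
    (by rw [Submodule.ker_mkQ, Submodule.range_subtype]) Subtype.val_injective
    (annM P M).mkQ_surjective (by rw [Submodule.ker_mkQ, Submodule.range_subtype])
    (fun _ _ => rfl) (fun _ _ => rfl) hρ hρ' hdet hlift h1 h2

/-- The classes of degree two which are locally trivial, from the equality of the dimensions. -/
theorem sha2_le_of_sha1_le [FiniteDimensional (ZMod p) A] [FiniteDimensional (ZMod p) A']
    (hfield : TargetField) (hlift : TargetLift) (hdual : TargetLocalDual) (hcoind : TargetCoind)
    (hp2 : p ≠ 2) {S : Finset Nat.Primes} (hpS : ExtCitation.pPrime p ∈ S)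
    {V : Nat.Primes → ValuationSubring LL} (hV : ∀ q, (V q).LiesOverPrime (q : ℕ))
    (F : SField p S) (hρ : F.Triv ρ) (hρ' : F.Triv ρ') (P : DualPair ρ ρ')
    (h : Sha1 ρ' S V ≤ B1 ρ' (MonoidHom.id GG)) :
    Sha2 ρ S V ≤ B2S ρ (MonoidHom.id GG) S := by
  obtain ⟨-, hfd, heq⟩ := sha_eq (F := F) hfield hlift hdual hcoind hp2 hpS hV hρ hρ' P
  haveI := hfd
  have h0 : Module.finrank (ZMod p) (SH (Sha1 ρ' S V) (B1 ρ' (MonoidHom.id GG))) = 0 := by
    haveI : Subsingleton (SH (Sha1 ρ' S V) (B1 ρ' (MonoidHom.id GG))) :=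
      Submodule.Quotient.subsingleton_iff.2 (eq_top_iff.2 fun x _ => h x.2)
    exact Module.finrank_zero_of_subsingleton
  rw [h0] at heq
  haveI := (Module.finrank_zero_iff (R := ZMod p)).1 heq
  have hss : Subsingleton (SH (Sha2 ρ S V) (B2S ρ (MonoidHom.id GG) S)) := inferInstance
  have htop := Submodule.Quotient.subsingleton_iff.1 hss
  intro x hx
  have hmem : (⟨x, hx⟩ : Sha2 ρ S V) ∈
      (B2S ρ (MonoidHom.id GG) S).comap (Sha2 ρ S V).subtype := htop ▸ Submodule.mem_top
  exact hmem

end FLTAgent.TWPrimes
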