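import Fermat.Agent.TWPrimes.Euler.Sub
import Fermat.Agent.TWPrimes.Count.Pair

/-!
# The inequality for a direct summand
-/

set_option autoImplicit false
set_option linter.unusedSectionVars false
set_option linter.style.haveILetI false

noncomputable section

open scoped Pointwise

namespace FLTAgent.TWPrimes

open FLTAgent.PoitouTate

local notation "LL" => AlgebraicClosure ℚ
local notation "GG" => (AlgebraicClosure ℚ ≃ₐ[ℚ] AlgebraicClosure ℚ)
local notation "idG" => MonoidHom.id (AlgebraicClosure ℚ ≃ₐ[ℚ] AlgebraicClosure ℚ)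

variable {p : ℕ} [Fact p.Prime]

/-- A splitting of `B` as the sum of `A` and `C`. -/
structure SplitR {A B C : Type} [AddCommGroup A] [Module (ZMod p) A] [AddCommGroup B]
    [Module (ZMod p) B] [AddCommGroup C] [Module (ZMod p) C] (α : Representation (ZMod p) GG A)
    (β : Representation (ZMod p) GG B) (γ : Representation (ZMod p) GG C) where
  i : A →ₗ[ZMod p] B
  r : B →ₗ[ZMod p] A
  j : C →ₗ[ZMod p] B
  s : B →ₗ[ZMod p] C
  i_eq : Equivar α β i
  r_eq : Equivar β α r
  j_eq : Equivar γ β j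
  s_eq : Equivar β γ s
  r_i : ∀ a, r (i a) = a
  s_j : ∀ c, s (j c) = c
  add : ∀ b, i (r b) + j (s b) = b

variable {A B C A' B' C' : Type} [AddCommGroup A] [Module (ZMod p) A] [AddCommGroup B]
  [Module (ZMod p) B] [AddCommGroup C] [Module (ZMod p) C] [AddCommGroup A'] [Module (ZMod p) A']
  [AddCommGroup B'] [Module (ZMod p) B'] [AddCommGroup C'] [Module (ZMod p) C']
  {α : Representation (ZMod p) GG A} {β : Representation (ZMod p) GG B}
  {γ : Representation (ZMod p) GG C}
  {α' : Representation (ZMod p) GG A'} {β' : Representation (ZMod p) GG B'}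
  {γ' : Representation (ZMod p) GG C'}
  [FiniteDimensional (ZMod p) A] [FiniteDimensional (ZMod p) A'] [FiniteDimensional (ZMod p) B]
  [FiniteDimensional (ZMod p) B'] [FiniteDimensional (ZMod p) C] [FiniteDimensional (ZMod p) C']

theorem SplitR.finrank_eq (d : SplitR α β γ) :
    Module.finrank (ZMod p) B = Module.finrank (ZMod p) A + Module.finrank (ZMod p) C := by
  have hs : ∀ a, d.s (d.i a) = 0 := fun a => by
    have h := congrArg d.s (d.add (d.i a))
    rwa [d.r_i, map_add, d.s_j, add_eq_left] at h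
  have hr : ∀ c, d.r (d.j c) = 0 := fun c => by
    have h := congrArg d.r (d.add (d.j c))
    rwa [d.s_j, map_add, d.r_i, add_eq_right] at h
  rw [← Module.finrank_prod]
  refine LinearEquiv.finrank_eq (LinearEquiv.ofBijective (d.r.prod d.s) ⟨fun x y h => ?_,
    fun x => ⟨d.i x.1 + d.j x.2, ?_⟩⟩)
  · rw [← d.add x, ← d.add y, show d.r x = d.r y from congrArg Prod.fst h,
      show d.s x = d.s y from congrArg Prod.snd h]
  · refine Prod.ext ?_ ?_
    · show d.r (d.i x.1 + d.j x.2) = x.1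
      rw [map_add, d.r_i, hr, add_zero]
    · show d.s (d.i x.1 + d.j x.2) = x.2
      rw [map_add, d.s_j, hs, zero_add]

theorem SplitR.finrank_inv (d : SplitR α β γ) (H : Subgroup GG) :
    Module.finrank (ZMod p) ↥(inv β H) =
      Module.finrank (ZMod p) ↥(inv α H) + Module.finrank (ZMod p) ↥(inv γ H) := by
  have hs : ∀ a, d.s (d.i a) = 0 := fun a => by
    have h := congrArg d.s (d.add (d.i a))
    rwa [d.r_i, map_add, d.s_j, add_eq_left] at h
  have hr : ∀ c, d.r (d.j c) = 0 := fun c => by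
    have h := congrArg d.r (d.add (d.j c))
    rwa [d.s_j, map_add, d.r_i, add_eq_right] at h
  rw [← Module.finrank_prod]
  let f : ↥(inv β H) →ₗ[ZMod p] ↥(inv α H) × ↥(inv γ H) :=
    ((d.r ∘ₗ (inv β H).subtype).codRestrict (inv α H) fun b => mem_inv.2 fun g hg =>
      (d.r_eq g b.1).symm.trans (congrArg d.r (mem_inv.1 b.2 g hg))).prod
    ((d.s ∘ₗ (inv β H).subtype).codRestrict (inv γ H) fun b => mem_inv.2 fun g hg =>
      (d.s_eq g b.1).symm.trans (congrArg d.s (mem_inv.1 b.2 g hg)))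
  refine LinearEquiv.finrank_eq (LinearEquiv.ofBijective f ⟨fun x y h => Subtype.ext ?_,
    fun x => ⟨⟨d.i x.1.1 + d.j x.2.1, mem_inv.2 fun g hg => ?_⟩,
      Prod.ext (Subtype.ext ?_) (Subtype.ext ?_)⟩⟩)
  · rw [← d.add x.1, ← d.add y.1, show d.r x.1 = d.r y.1 from congrArg (fun z => z.1.1) h,
      show d.s x.1 = d.s y.1 from congrArg (fun z => z.2.1) h]
  · rw [map_add, ← d.i_eq, ← d.j_eq, mem_inv.1 x.1.2 g hg, mem_inv.1 x.2.2 g hg]
  · show d.r (d.i x.1.1 + d.j x.2.1) = x.1.1
    rw [map_add, d.r_i, hr, add_zero]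
  · show d.s (d.i x.1.1 + d.j x.2.1) = x.2.1
    rw [map_add, d.s_j, hs, zero_add]

/-- The inequality for a summand. -/
theorem eulerGE_of_split (d : SplitR α β γ) (d' : SplitR α' β' γ') (hB : EulerGE β β')
    (hC : EulerLE γ γ') : EulerGE α α' := by
  classical
  obtain ⟨Sb, hpb, hB⟩ := hB
  obtain ⟨Sc, hpc, hC⟩ := hC
  refine ⟨Sb ∪ Sc, Finset.mem_union_left _ hpb, fun S hS V hV c hc => ?_⟩
  obtain ⟨hfB, hB⟩ := hB S ((Finset.subset_union_left).trans hS) V hV c hc
  obtain ⟨hfC, hC⟩ := hC S ((Finset.subset_union_right).trans hS) V hV c hc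
  haveI := hfB
  haveI := hfC
  let fA : ↥(Z1S α idG S) →ₗ[ZMod p] ↥(Z1S β idG S) :=
    (push1 d.i ∘ₗ (Z1S α idG S).subtype).codRestrict _ fun x => push1_mem_Z1S d.i_eq x.2
  have hfA : Function.Injective fA := fun x y h => Subtype.ext (funext fun g => by
    have h1 := congrArg d.r (congrFun (congrArg Subtype.val h) g)
    change d.r (d.i (x.1 g)) = d.r (d.i (y.1 g)) at h1
    rwa [d.r_i, d.r_i] at h1)
  haveI hfinA : FiniteDimensional (ZMod p) ↥(Z1S α idG S) :=
    Module.Finite.of_injective fA hfA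
  refine ⟨hfinA, ?_⟩
  let fB : ↥(Z1S β idG S) →ₗ[ZMod p] ↥(Z1S α idG S) × ↥(Z1S γ idG S) :=
    ((push1 d.r ∘ₗ (Z1S β idG S).subtype).codRestrict _ fun x => push1_mem_Z1S d.r_eq x.2).prod
    ((push1 d.s ∘ₗ (Z1S β idG S).subtype).codRestrict _ fun x => push1_mem_Z1S d.s_eq x.2)
  have hfBi : Function.Injective fB := fun x y h => Subtype.ext (funext fun g => by
    rw [← d.add (x.1 g), ← d.add (y.1 g),
      show d.r (x.1 g) = d.r (y.1 g) from congrFun (congrArg (fun z => z.1.1) h) g,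
      show d.s (x.1 g) = d.s (y.1 g) from congrFun (congrArg (fun z => z.2.1) h) g])
  have h1 := LinearMap.finrank_le_finrank_of_injective hfBi
  rw [Module.finrank_prod] at h1
  have e1 := d.finrank_eq
  have e2 : ∀ H : Subgroup GG, _ := d'.finrank_inv
  simp only [locTerm, e2, Finset.sum_add_distrib] at hB hC ⊢
  omega

end FLTAgent.TWPrimes
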