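import Fermat.Agent.TWPrimes.Euler.Descend
import Fermat.Agent.TWPrimes.Euler.Proj
import Fermat.Agent.TWPrimes.Euler.Summand
import Fermat.Agent.TWPrimes.Euler.Interface
import Fermat.Agent.TWPrimes.Count.Residual

/-!
# The lower bound for the twisted adjoint representation

Functions on the cosets of the stabiliser of a line are filtered by modules induced from lines, and
split as the twisted adjoint representation plus a projective complement.
-/

set_option autoImplicit false
set_option linter.unusedSectionVars false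
set_option linter.style.haveILetI false
set_option maxHeartbeats 1000000

noncomputable section

open scoped Pointwise Classical

namespace FLTAgent.TWPrimes

open FLTAgent.PoitouTate

local notation "LL" => AlgebraicClosure ℚ
local notation "GG" => (AlgebraicClosure ℚ ≃ₐ[ℚ] AlgebraicClosure ℚ)

variable {p : ℕ} [Fact p.Prime] {A A' : Type} [AddCommGroup A] [Module (ZMod p) A] [AddCommGroup A']
  [Module (ZMod p) A'] {H : Subgroup GG} {ρ : Representation (ZMod p) GG A}
  {ρ' : Representation (ZMod p) GG A'} [Fintype (GG ⧸ H)]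

theorem e0_mem_fnSub {M : Submodule (ZMod p) A} (hM : ∀ h ∈ H, ∀ a ∈ M, ρ h a ∈ M)
    {f : GG ⧸ H → A} (hf : f ∈ fnSub H ρ M) : e0 p (H := H) A f ∈ fnSub H ρ M :=
  single_mem_fnSub hM (apply_bp_of_mem hf)

theorem indR_e0 {u : GG} (hu : u ∈ H) (f : GG ⧸ H → A) :
    indR H ρ u (e0 p (H := H) A f) - e0 p (H := H) A f =
      Pi.single (bp H) (ρ u (f (bp H)) - f (bp H)) := by
  have hb : u⁻¹ • bp H = bp H := (smul_bp_eq_iff H).2 (inv_mem hu)
  funext z
  rw [Pi.sub_apply, indR_apply, e0_apply]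
  by_cases hz : z = bp H
  · rw [hz, hb, Pi.single_eq_same, Pi.single_eq_same]
  · have hz' : u⁻¹ • z ≠ bp H := fun h' => hz (smul_left_cancel u⁻¹ (h'.trans hb.symm))
    rw [Pi.single_eq_of_ne hz, Pi.single_eq_of_ne hz', Pi.single_eq_of_ne hz, map_zero, sub_zero]

theorem e0_sub_mem {M N : Submodule (ZMod p) A} (hN : ∀ h ∈ H, ∀ a ∈ N, ρ h a ∈ N) {u : GG}
    (hu : u ∈ H) (hfix : ∀ a ∈ M, ρ u a - a ∈ N) {f : GG ⧸ H → A} (hf : f ∈ fnSub H ρ M) :
    indR H ρ u (e0 p (H := H) A f) - e0 p (H := H) A f ∈ fnSub H ρ N := by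
  rw [indR_e0 hu]
  exact single_mem_fnSub hN (hfix _ (apply_bp_of_mem hf))

/-- An element moving the base fibre outside `N` kills the invariant classes which lift. -/
theorem cycLift_of_moved {B : Type} [AddCommGroup B] [Module (ZMod p) B]
    {τ : Representation (ZMod p) GG B} (φ : B →ₗ[ZMod p] GG ⧸ H → A)
    (hφ : Equivar τ (indR H ρ) φ) {N : Submodule (ZMod p) A} {K : Submodule (ZMod p) B}
    (hK : ∀ b, b ∈ K ↔ φ b ∈ fnSub H ρ N) (hKs : Stab τ K) {u : GG} (hu : u ∈ H)
    (hmove : ∀ b, ρ u (φ b (bp H)) = φ b (bp H) → φ b (bp H) ∈ N) :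
    CycLift τ (quotR hKs) K.mkQ := by
  intro a ha hfix
  refine ⟨0, zero_mem _, ?_⟩
  obtain ⟨x, rfl⟩ := Submodule.Quotient.mk_surjective _ a
  obtain ⟨b, hb, hbx⟩ := hfix u
  have h1 : φ b (bp H) ∈ N := by
    refine hmove b ?_
    conv_rhs => rw [← hb, hφ, indR_apply, (smul_bp_eq_iff H).2 (inv_mem hu)]
  have h2 : φ x (bp H) ∈ N := by
    have h := apply_bp_of_mem ((hK _).1 ((Submodule.Quotient.eq K).1 hbx))
    rw [map_sub, Pi.sub_apply] at h
    have h3 := sub_mem h1 h
    rwa [sub_sub_cancel] at h3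
  rw [map_zero]
  refine ((Submodule.Quotient.mk_eq_zero K).2 ((hK x).2 (mem_fnSub.2 fun g => ?_))).symm
  have h := mem_inv.1 ha g (Subgroup.mem_top g)
  rw [quotR_mk, Submodule.Quotient.eq] at h
  have h4 := apply_bp_of_mem ((hK _).1 h)
  rw [map_sub, Pi.sub_apply, hφ, indR_apply] at h4
  have h5 := add_mem h4 h2
  rwa [sub_add_cancel] at h5

section Split

variable (H ρ)

/-- The sum of the values. -/
def totalL : (GG ⧸ H → A) →ₗ[ZMod p] A := ∑ z : GG ⧸ H, LinearMap.proj z

theorem totalL_apply (f : GG ⧸ H → A) : totalL (p := p) H (A := A) f = ∑ z, f z := by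
  simp [totalL]

theorem totalL_equivar : Equivar (indR H ρ) ρ (totalL (p := p) H (A := A)) := fun g f => by
  rw [totalL_apply, totalL_apply, map_sum]
  exact Fintype.sum_equiv (MulAction.toPerm g⁻¹) _ _ fun z => rfl

theorem ker_totalL_stab : Stab (indR H ρ) (LinearMap.ker (totalL (p := p) H (A := A))) :=
  fun g f hf => LinearMap.mem_ker.2 (by rw [totalL_equivar H ρ g f, LinearMap.mem_ker.1 hf, map_zero])

/-- The constant function. -/
def constL : A →ₗ[ZMod p] GG ⧸ H → A := LinearMap.pi fun _ => LinearMap.id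

theorem totalL_constL (a : A) :
    totalL (p := p) H (constL (p := p) H a) = (Fintype.card (GG ⧸ H) : ZMod p) • a := by
  rw [totalL_apply, Nat.cast_smul_eq_nsmul, ← Finset.card_univ, ← Finset.sum_const]
  rfl

variable {H} (hn : (Fintype.card (GG ⧸ H) : ZMod p) ≠ 0)

/-- The constants and their complement. -/
def constSplit : SplitR ρ (indR H ρ) (subR (ker_totalL_stab H ρ)) where
  i := constL (p := p) H
  r := (Fintype.card (GG ⧸ H) : ZMod p)⁻¹ • totalL (p := p) H
  j := (LinearMap.ker (totalL (p := p) H (A := A))).subtype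
  s := LinearMap.codRestrict _ ((LinearMap.id : (GG ⧸ H → A) →ₗ[ZMod p] GG ⧸ H → A) -
      constL (p := p) H ∘ₗ
        ((Fintype.card (GG ⧸ H) : ZMod p)⁻¹ • totalL (p := p) H)) fun f =>
    LinearMap.mem_ker.2 (by
      rw [LinearMap.sub_apply, LinearMap.id_apply, LinearMap.comp_apply, map_sub, totalL_constL,
        LinearMap.smul_apply, smul_smul, mul_inv_cancel₀ hn, one_smul, sub_self])
  i_eq g a := rfl
  r_eq g f := by rw [LinearMap.smul_apply, LinearMap.smul_apply, totalL_equivar H ρ g f, map_smul]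
  j_eq g f := rfl
  s_eq g f := Subtype.ext (by
    show indR H ρ g f -
        constL (p := p) H ((Fintype.card (GG ⧸ H) : ZMod p)⁻¹ • totalL (p := p) H (indR H ρ g f)) =
      indR H ρ g (f -
        constL (p := p) H ((Fintype.card (GG ⧸ H) : ZMod p)⁻¹ • totalL (p := p) H f))
    rw [totalL_equivar H ρ g f, map_sub, ← map_smul]
    rfl)
  r_i a := by
    rw [LinearMap.smul_apply, totalL_constL, smul_smul, inv_mul_cancel₀ hn, one_smul]
  s_j f := Subtype.ext (by
    show f.1 - constL (p := p) H ((Fintype.card (GG ⧸ H) : ZMod p)⁻¹ • totalL (p := p) H f.1) = f.1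
    rw [LinearMap.mem_ker.1 f.2, smul_zero, map_zero, sub_zero])
  add f := add_sub_cancel _ f

/-- The pairing of the complements. -/
def kerPair (P : DualPair ρ ρ') :
    DualPair (subR (ker_totalL_stab H ρ)) (subR (ker_totalL_stab H ρ')) where
  e := (indPair P).e.compl₁₂ (Submodule.subtype _) (Submodule.subtype _)
  equivariant g a b := (indPair P).equivariant g a.1 b.1
  left a ha := Subtype.ext ((indPair P).left a.1 fun b => by
    rw [← (constSplit ρ' hn).add b, map_add]
    refine (add_eq_left.2 (ha _)).trans ?_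
    rw [indPair_apply]
    show ∑ z, P.e (a.1 z) ((constSplit ρ' hn).r b) = 0
    rw [← LinearMap.sum_apply, ← map_sum, ← totalL_apply (p := p), LinearMap.mem_ker.1 a.2, map_zero,
      LinearMap.zero_apply])
  right b hb := Subtype.ext ((indPair P).right b.1 fun a => by
    rw [← (constSplit ρ hn).add a, map_add, LinearMap.add_apply]
    refine (add_eq_left.2 (hb _)).trans ?_
    rw [indPair_apply]
    show ∑ z, P.e ((constSplit ρ hn).r a) (b.1 z) = 0
    rw [← map_sum, ← totalL_apply (p := p), LinearMap.mem_ker.1 b.2, map_zero])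

end Split

variable {k : Type} [Field k] [Finite k] [Algebra (ZMod p) k]

/-- The lower bound for the twisted adjoint representation. -/
theorem targetEuler (hdev : TargetDev) (hunits : TargetUnits) (hline : TargetLine)
    (hfacts : TargetLineFacts) : TargetEuler := by
  intro p _ k _ _ _ D
  obtain ⟨l⟩ := hline p k D
  have lf := hfacts p k D l
  obtain ⟨F, hF⟩ := exists_field D
  haveI := Fintype.ofFinite F.Γ
  haveI : l.H.FiniteIndex := l.finite
  haveI : Fintype (GG ⧸ l.H) := Fintype.ofFinite _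
  haveI := finite_coeff (p := p) (k := k)
  have hp2 := D.ne_two
  have hNPn : F.N ≤ l.Pn := hF.le.trans l.ker_le
  have hNH : F.N ≤ l.H := hNPn.trans l.le
  have hn : (Fintype.card (GG ⧸ l.H) : ZMod p) ≠ 0 := by
    rw [Ne, ZMod.natCast_eq_zero_iff, ← Nat.card_eq_fintype_card]
    exact l.not_dvd_index
  set P : DualPair (ad D 1) (ad D 0) := (adPair D).swap with hP
  set β := indR l.H (ad D 1) with hβ
  set β' := indR l.H (ad D 0) with hβ'
  set PB : DualPair β β' := indPair P with hPB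
  have hT1 : F.Triv β := triv_indR hNH (triv_ad D hF 1)
  have hT0 : F.Triv β' := triv_indR hNH (triv_ad D hF 0)
  have hann1 : annM P (low p l.v) = mid p l.v := by
    ext b
    exact mem_annM.trans (lf.mid_orth b).symm
  have hann2 : annM P (mid p l.v) = low p l.v := by
    ext b
    rw [mem_annM, lf.low_orth b]
    refine forall₂_congr fun a _ => ?_
    show (adPair D).e b a = 0 ↔ (adPair D).e a b = 0
    rw [adPair_apply, adPair_apply, Matrix.trace_mul_comm]
  -- the line case
  have hline' : ∀ (B B' : Type) [AddCommGroup B] [Module (ZMod p) B] [AddCommGroup B']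
      [Module (ZMod p) B'] [FiniteDimensional (ZMod p) B] [FiniteDimensional (ZMod p) B']
      (τ : Representation (ZMod p) GG B) (τ' : Representation (ZMod p) GG B'), DualPair τ τ' →
      F.Triv τ → F.Triv τ' → ∀ e : B →ₗ[ZMod p] B, IndE τ l.H e →
        (∀ u ∈ l.Pn, τ u ∘ₗ e = e) → EulerGE τ τ' :=
    fun B B' _ _ _ _ _ _ τ τ' Q h h' e he hu =>
      (hunits p hp2 D.bad F B B' τ τ' Q h h').2 l.H l.Pn hNPn l.le l.normal l.not_dvd_relIndex
        lf.om_one e he.idem he.comm hu he.sep he.sum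
  have hbig : ¬ p ∣ Nat.card F.Γ ∨ ∃ u ∈ l.Pn, D.rb u ≠ 1 := by
    refine l.big.imp_left fun h => ?_
    show ¬ p ∣ F.N.index
    rwa [hF]
  -- the first step
  set M1 := fnSub l.H (ad D 1) (low p l.v) with hM1
  have sM1 : Stab β M1 := fnSub_stab _
  have hA1 : annM PB M1 = fnSub l.H (ad D 0) (mid p l.v) := by
    rw [hPB, hM1, annM_fnSub P (lf.low_stable 1), hann1]
  have e1M : ∀ f ∈ M1, e0 p (H := l.H) (W k) f ∈ M1 := fun f => e0_mem_fnSub (lf.low_stable 1)
  have h1 : EulerGE (subR sM1) (quotR (annM_stab PB sM1)) :=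
    hline' _ _ _ _ (subQuot PB sM1) (triv_subR _ hT1) (triv_quotR _ hT0) _
      ((indE_e0 l.H (ad D 1)).sub sM1 e1M) fun u hu => LinearMap.ext fun f => Subtype.ext (by
        show indR l.H (ad D 1) u (e0 p (H := l.H) (W k) f.1) = e0 p (H := l.H) (W k) f.1
        rw [← sub_eq_zero, indR_e0 (l.le hu), lf.low_fixed 1 u hu _ (apply_bp_of_mem f.2),
          sub_self, Pi.single_zero])
  have e1A : ∀ f ∈ annM PB M1, e0 p (H := l.H) (W k) f ∈ annM PB M1 := fun f hf => by
    rw [hA1] at hf ⊢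
    exact e0_mem_fnSub (lf.mid_stable 0) hf
  have hdet1 : CycDetect (quotR (annM_stab PB sM1)) F.N :=
    cycDetect_of_ind ((indE_e0 l.H (ad D 0)).quot (annM_stab PB sM1) e1A) l.le l.not_dvd_relIndex
      fun u hu => Submodule.linearMap_qext _ (LinearMap.ext fun f =>
        (Submodule.Quotient.eq _).2 (by
          rw [hA1]
          exact e0_sub_mem (M := ⊤) (lf.mid_stable 0) (l.le hu)
            (fun a _ => lf.top_fixed 0 u hu a) (by simp [mem_fnSub])))
  have hlift1 : CycLift β' (quotR (annM_stab PB sM1)) (annM PB M1).mkQ := by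
    rcases hbig with h | ⟨u, hu, hu1⟩
    · exact cycLift_of_coprime F hT0 h (fun g b => rfl) (Submodule.mkQ_surjective _)
    · exact cycLift_of_moved LinearMap.id (fun _ _ => rfl) (fun b => by rw [hA1]; rfl) _ (l.le hu)
        fun b hb => lf.fixed_mem_mid u hu hu1 _ hb
  -- the second step, in the quotient
  set γ := quotR sM1 with hγ
  set γ' := subR (annM_stab PB sM1) with hγ'
  set PC : DualPair γ γ' := quotSub PB sM1 with hPC
  set M2 := (fnSub l.H (ad D 1) (mid p l.v)).map M1.mkQ with hM2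
  have sM2 : Stab γ M2 := by
    rintro g _ ⟨f, hf, rfl⟩
    exact ⟨β g f, fnSub_stab _ g f hf, rfl⟩
  have hA2 : ∀ x, x ∈ annM PC M2 ↔ (x : GG ⧸ l.H → W k) ∈ fnSub l.H (ad D 0) (low p l.v) := by
    intro x
    rw [← hann2, ← annM_fnSub P (lf.mid_stable 1), mem_annM, mem_annM]
    exact ⟨fun h m hm => h _ ⟨m, hm, rfl⟩, by rintro h _ ⟨m, hm, rfl⟩; exact h m hm⟩
  have eC : ∀ m ∈ M2, M1.mapQ M1 (e0 p (H := l.H) (W k)) e1M m ∈ M2 := by
    rintro _ ⟨f, hf, rfl⟩
    exact ⟨_, e0_mem_fnSub (lf.mid_stable 1) hf, rfl⟩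
  have h21 : EulerGE (subR sM2) (quotR (annM_stab PC sM2)) :=
    hline' _ _ _ _ (subQuot PC sM2) (triv_subR _ (triv_quotR _ hT1))
      (triv_quotR _ (triv_subR _ hT0)) _
      (((indE_e0 l.H (ad D 1)).quot sM1 e1M).sub sM2 eC) fun u hu =>
        LinearMap.ext fun f => Subtype.ext (by
          obtain ⟨x, hx, hxf⟩ := f.2
          show γ u (M1.mapQ M1 _ e1M f.1) = M1.mapQ M1 _ e1M f.1
          rw [← hxf]
          exact (Submodule.Quotient.eq _).2 (e0_sub_mem (lf.low_stable 1) (l.le hu)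
            (fun a ha => lf.mid_fixed 1 u hu a ha) hx))
  have h22 : EulerGE (quotR sM2) (subR (annM_stab PC sM2)) :=
    hline' _ _ _ _ (quotSub PC sM2) (triv_quotR _ (triv_quotR _ hT1))
      (triv_subR _ (triv_subR _ hT0)) _
      (((indE_e0 l.H (ad D 1)).quot sM1 e1M).quot sM2 eC) fun u hu =>
        Submodule.linearMap_qext _ (Submodule.linearMap_qext _ (LinearMap.ext fun f =>
          (Submodule.Quotient.eq M2).2 ⟨_, e0_sub_mem (M := ⊤) (lf.mid_stable 1) (l.le hu)
            (fun a _ => lf.top_fixed 1 u hu a) (f := f) (by simp [mem_fnSub]), rfl⟩))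
  have eC' : ∀ x ∈ annM PC M2,
      (e0 p (H := l.H) (W k)).restrict e1A x ∈ annM PC M2 := fun x hx =>
    (hA2 _).2 (e0_mem_fnSub (lf.low_stable 0) ((hA2 x).1 hx))
  have hdet2 : CycDetect (quotR (annM_stab PC sM2)) F.N :=
    cycDetect_of_ind (((indE_e0 l.H (ad D 0)).sub (annM_stab PB sM1) e1A).quot
      (annM_stab PC sM2) eC') l.le l.not_dvd_relIndex
      fun u hu => Submodule.linearMap_qext _ (LinearMap.ext fun x =>
        (Submodule.Quotient.eq _).2 ((hA2 _).2 (e0_sub_mem (lf.low_stable 0) (l.le hu)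
          (fun a ha => lf.mid_fixed 0 u hu a ha) (by rw [← hA1]; exact x.2))))
  have hlift2 : CycLift γ' (quotR (annM_stab PC sM2)) (annM PC M2).mkQ := by
    rcases hbig with h | ⟨u, hu, hu1⟩
    · exact cycLift_of_coprime F (triv_subR _ hT0) h (fun g b => rfl) (Submodule.mkQ_surjective _)
    · exact cycLift_of_moved (annM PB M1).subtype (fun _ _ => rfl) hA2 _ (l.le hu)
        fun b hb => lf.fixed_mem_low u hu hu1 _ (apply_bp_of_mem (by rw [← hA1]; exact b.2)) hb
  have h2 : EulerGE γ γ' :=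
    eulerGE_of_sub hdev hp2 F PC sM2 (triv_quotR _ hT1) (triv_subR _ hT0) hdet2 hlift2 h21 h22
  have hB : EulerGE β β' := eulerGE_of_sub hdev hp2 F PB sM1 hT1 hT0 hdet1 hlift1 h1 h2
  -- the projective complement
  obtain ⟨c, hc⟩ := exists_weight (F := F) hNH fun g hg a ha hga hap => by
    rw [hF, MonoidHom.mem_ker, map_pow] at hap
    rw [hF, MonoidHom.mem_ker]
    exact l.sep g hg a ha hga hap
  set d1 := constSplit (ad D 1) hn with hd1
  set d0 := constSplit (ad D 0) hn with hd0
  set e2 := d1.s ∘ₗ ((Fintype.card (GG ⧸ l.H) : ZMod p)⁻¹ • eW (H := l.H) c) ∘ₗ d1.j with he2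
  have hle : EulerLE (subR (ker_totalL_stab l.H (ad D 1))) (subR (ker_totalL_stab l.H (ad D 0))) := by
    refine (hunits p hp2 D.bad F _ _ _ _ (kerPair (ad D 1) hn P) (triv_subR _ hT1)
      (triv_subR _ hT0)).1 e2 (LinearMap.ext fun b => ?_)
    rw [LinearMap.sum_apply, LinearMap.id_apply]
    simp only [he2, LinearMap.comp_apply, LinearMap.smul_apply, map_smul]
    have hterm : ∀ x : F.Γ, subR (ker_totalL_stab l.H (ad D 1)) x.out
        (d1.s (eW (H := l.H) c (d1.j (subR (ker_totalL_stab l.H (ad D 1)) x.out⁻¹ b)))) =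
        d1.s (β x.out (eW (H := l.H) c (β x.out⁻¹ b.1))) := fun x => (d1.s_eq _ _).symm
    rw [← Finset.smul_sum, Finset.sum_congr rfl fun x _ => hterm x, ← map_sum, ← map_smul]
    refine Eq.trans (congrArg d1.s (funext fun z => ?_)) (d1.s_j b)
    rw [Pi.smul_apply, Finset.sum_apply, sum_eW (ad D 1) hNH hc b.1 z,
      ← totalL_apply (p := p), LinearMap.mem_ker.1 b.2, sub_zero, smul_smul, inv_mul_cancel₀ hn,
      one_smul]
    rfl
  exact eulerGE_of_split d1 d0 hB hle

end FLTAgent.TWPrimes
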